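import Mathlib

/-!
# S41 / PD leaf TORS (helper952), Mathlib-only core

Every element of finite order of `SL(2,ℤ)` is conjugate to one of `± 1, ± S, ± ST, ± (ST)²`
(`torsion_class`).  Proof: trace recursion `tr g^(n+2) = t · tr g^(n+1) - tr g^n` gives `|t| ≤ 2`;
`t = ± 2` forces `g = ± 1`; for `t = 0, 1` an explicit descent (conjugation by `T^k` and `S`) reaches a
reduced matrix with `|2a - t| ≤ |c| ≤ |b|`, of which there are only finitely many.
Reusable: `mkSL`, `conj_T_zpow`, `conj_S`, `cayley`, `abs_tr2_le_two`, `exists_reduced`.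
-/


set_option autoImplicit false

namespace Fermat.Agent.S41.H952

open Matrix ModularGroup
open scoped MatrixGroups

/-- Build an element of `SL(2,ℤ)` from its entries. -/
def mkSL (a b c d : ℤ) (h : a * d - b * c = 1) : SL(2, ℤ) :=
  ⟨!![a, b; c, d], by rw [Matrix.det_fin_two_of]; exact h⟩

@[simp] lemma mkSL_val (a b c d : ℤ) (h : a * d - b * c = 1) :
    (mkSL a b c d h).1 = !![a, b; c, d] := rfl

lemma ext_entries {g g' : SL(2, ℤ)} (h00 : g.1 0 0 = g'.1 0 0) (h01 : g.1 0 1 = g'.1 0 1)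
    (h10 : g.1 1 0 = g'.1 1 0) (h11 : g.1 1 1 = g'.1 1 1) : g = g' := by
  ext i j
  fin_cases i <;> fin_cases j <;> assumption

lemma det_entries (g : SL(2, ℤ)) : g.1 0 0 * g.1 1 1 - g.1 0 1 * g.1 1 0 = 1 := by
  have := g.det_coe
  rw [Matrix.det_fin_two] at this
  exact this

lemma eq_mkSL (g : SL(2, ℤ)) :
    g = mkSL (g.1 0 0) (g.1 0 1) (g.1 1 0) (g.1 1 1) (det_entries g) := by
  apply ext_entries <;> simp

lemma mkSL_congr {a b c d a' b' c' d' : ℤ} (h : a * d - b * c = 1) (ha : a = a') (hb : b = b')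
    (hc : c = c') (hd : d = d') :
    mkSL a b c d h = mkSL a' b' c' d' (by subst ha hb hc hd; exact h) := by
  subst ha hb hc hd; rfl

/-- Conjugation by `T ^ k`. -/
lemma conj_T_zpow (k : ℤ) (a b c d : ℤ) (h : a * d - b * c = 1) :
    T ^ k * mkSL a b c d h * (T ^ k)⁻¹ =
      mkSL (a + k * c) (b + k * (d - a) - k ^ 2 * c) c (d - k * c) (by linear_combination h) := by
  rw [mul_inv_eq_iff_eq_mul]
  apply ext_entries
  all_goals
    rw [Matrix.SpecialLinearGroup.coe_mul, Matrix.SpecialLinearGroup.coe_mul, coe_T_zpow, mkSL_val,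
      mkSL_val]
    simp [Matrix.mul_apply, Fin.sum_univ_two]
  all_goals ring

/-- Conjugation by `S`. -/
lemma conj_S (a b c d : ℤ) (h : a * d - b * c = 1) :
    S * mkSL a b c d h * S⁻¹ = mkSL d (-c) (-b) a (by linear_combination h) := by
  rw [mul_inv_eq_iff_eq_mul]
  apply ext_entries
  all_goals
    rw [Matrix.SpecialLinearGroup.coe_mul, Matrix.SpecialLinearGroup.coe_mul, coe_S, mkSL_val,
      mkSL_val]
    simp [Matrix.mul_apply, Fin.sum_univ_two]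

lemma conj_trans {g g₁ g₂ h₁ h₂ : SL(2, ℤ)} (e₁ : h₁ * g * h₁⁻¹ = g₁)
    (e₂ : h₂ * g₁ * h₂⁻¹ = g₂) : (h₂ * h₁) * g * (h₂ * h₁)⁻¹ = g₂ := by
  rw [← e₂, ← e₁]; group

lemma S_eq : S = mkSL 0 (-1) 1 0 (by norm_num) := by
  apply ext_entries <;> simp [coe_S]

lemma neg_mkSL (a b c d : ℤ) (h : a * d - b * c = 1) :
    -mkSL a b c d h = mkSL (-a) (-b) (-c) (-d) (by linear_combination h) := by
  apply ext_entries <;> simp [Matrix.SpecialLinearGroup.coe_neg]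

lemma ST_eq : S * T = mkSL 0 (-1) 1 1 (by norm_num) := by
  apply ext_entries
  all_goals
    rw [Matrix.SpecialLinearGroup.coe_mul, coe_S, coe_T, mkSL_val]
    simp [Matrix.mul_apply, Fin.sum_univ_two]

lemma ST_sq_eq : (S * T) ^ 2 = mkSL (-1) (-1) 1 0 (by norm_num) := by
  rw [pow_two, ST_eq]
  apply ext_entries
  all_goals
    rw [Matrix.SpecialLinearGroup.coe_mul, mkSL_val, mkSL_val]
    simp [Matrix.mul_apply, Fin.sum_univ_two]


/-! ### Cayley–Hamilton and the trace recursion -/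

/-- The trace of `g`. -/
def tr2 (g : SL(2, ℤ)) : ℤ := g.1 0 0 + g.1 1 1

lemma cayley (g : SL(2, ℤ)) : g.1 * g.1 = tr2 g • g.1 - 1 := by
  have hd := det_entries g
  ext i j
  fin_cases i <;> fin_cases j <;>
    simp only [Matrix.mul_apply, Fin.sum_univ_two, tr2, Matrix.sub_apply, Matrix.smul_apply,
      smul_eq_mul, Matrix.one_apply_eq, Fin.zero_eta, Fin.mk_one, Fin.isValue, ne_eq,
      zero_ne_one, one_ne_zero, not_false_eq_true, Matrix.one_apply_ne, sub_zero] <;>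
    first | ring1 | linear_combination hd | linear_combination -hd

lemma pow_rec (g : SL(2, ℤ)) (n : ℕ) :
    (g ^ (n + 2)).1 = tr2 g • (g ^ (n + 1)).1 - (g ^ n).1 := by
  have h1 : (g ^ (n + 2)).1 = (g ^ n).1 * (g.1 * g.1) := by
    rw [pow_add, pow_two, Matrix.SpecialLinearGroup.coe_mul, Matrix.SpecialLinearGroup.coe_mul]
  have h2 : (g ^ (n + 1)).1 = (g ^ n).1 * g.1 := by
    rw [pow_succ, Matrix.SpecialLinearGroup.coe_mul]
  rw [h1, h2, cayley, Matrix.mul_sub, Matrix.mul_smul, Matrix.mul_one]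

lemma tr2_pow_rec (g : SL(2, ℤ)) (n : ℕ) :
    tr2 (g ^ (n + 2)) = tr2 g * tr2 (g ^ (n + 1)) - tr2 (g ^ n) := by
  have h := pow_rec g n
  have h00 := congrFun (congrFun h 0) 0
  have h11 := congrFun (congrFun h 1) 1
  simp only [Matrix.sub_apply, Matrix.smul_apply, smul_eq_mul] at h00 h11
  unfold tr2 at h00 h11 ⊢
  rw [h00, h11]
  ring

lemma tr2_one : tr2 (1 : SL(2, ℤ)) = 2 := by
  simp [tr2]

lemma abs_tr2_pow_lt (g : SL(2, ℤ)) (h3 : 3 ≤ |tr2 g|) (n : ℕ) :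
    |tr2 (g ^ n)| < |tr2 (g ^ (n + 1))| := by
  induction n with
  | zero =>
    rw [pow_zero, tr2_one, zero_add, pow_one]
    have : |(2 : ℤ)| = 2 := by norm_num
    rw [this]; omega
  | succ n ih =>
    rw [tr2_pow_rec g n]
    have h1 : |tr2 g * tr2 (g ^ (n + 1))| = |tr2 g| * |tr2 (g ^ (n + 1))| := abs_mul _ _
    have h2 : |tr2 g * tr2 (g ^ (n + 1))| - |tr2 (g ^ n)| ≤
        |tr2 g * tr2 (g ^ (n + 1)) - tr2 (g ^ n)| := abs_sub_abs_le_abs_sub _ _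
    have h4 : 0 ≤ |tr2 (g ^ n)| := abs_nonneg _
    have h5 : 3 * |tr2 (g ^ (n + 1))| ≤ |tr2 g| * |tr2 (g ^ (n + 1))| :=
      mul_le_mul_of_nonneg_right h3 (abs_nonneg _)
    omega

lemma abs_tr2_pow_ge (g : SL(2, ℤ)) (h3 : 3 ≤ |tr2 g|) (n : ℕ) :
    2 + (n : ℤ) ≤ |tr2 (g ^ n)| := by
  induction n with
  | zero => rw [pow_zero, tr2_one]; norm_num
  | succ n ih =>
    have := abs_tr2_pow_lt g h3 n
    push_cast
    omega

lemma abs_tr2_le_two {g : SL(2, ℤ)} (hg : IsOfFinOrder g) : |tr2 g| ≤ 2 := by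
  by_contra hcon
  have h3 : 3 ≤ |tr2 g| := by omega
  obtain ⟨n, hn, hgn⟩ := isOfFinOrder_iff_pow_eq_one.mp hg
  have := abs_tr2_pow_ge g h3 n
  rw [hgn, tr2_one] at this
  have h2 : |(2 : ℤ)| = 2 := by norm_num
  rw [h2] at this
  omega

/-! ### Trace `±2` -/

lemma pow_of_tr2_eq_two (g : SL(2, ℤ)) (ht : tr2 g = 2) (n : ℕ) :
    (g ^ (n + 1)).1 = ((n : ℤ) + 1) • g.1 - (n : ℤ) • (1 : Matrix (Fin 2) (Fin 2) ℤ) := by
  induction n with
  | zero => simp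
  | succ n ih =>
    have h2 : (g ^ (n + 1 + 1)).1 = (g ^ (n + 1)).1 * g.1 := by
      rw [pow_succ, Matrix.SpecialLinearGroup.coe_mul]
    rw [h2, ih, Matrix.sub_mul, Matrix.smul_mul, Matrix.smul_mul, cayley, ht, Matrix.one_mul]
    push_cast
    module

lemma eq_one_of_tr2_eq_two {g : SL(2, ℤ)} (hg : IsOfFinOrder g) (ht : tr2 g = 2) : g = 1 := by
  obtain ⟨n, hn, hgn⟩ := isOfFinOrder_iff_pow_eq_one.mp hg
  obtain ⟨m, rfl⟩ : ∃ m, n = m + 1 := ⟨n - 1, by omega⟩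
  have h := pow_of_tr2_eq_two g ht m
  rw [hgn] at h
  have key : ∀ i j, ((m : ℤ) + 1) * (g.1 i j - (1 : Matrix (Fin 2) (Fin 2) ℤ) i j) = 0 := by
    intro i j
    have := congrFun (congrFun h i) j
    simp only [Matrix.SpecialLinearGroup.coe_one, Matrix.sub_apply, Matrix.smul_apply,
      smul_eq_mul] at this
    linear_combination -this
  have hm : ((m : ℤ) + 1) ≠ 0 := by positivity
  ext i j
  have := (mul_eq_zero.mp (key i j)).resolve_left hm
  simp only [Matrix.SpecialLinearGroup.coe_one]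
  linarith

lemma tr2_neg (g : SL(2, ℤ)) : tr2 (-g) = - tr2 g := by
  simp [tr2, Matrix.SpecialLinearGroup.coe_neg]
  ring

lemma isOfFinOrder_neg {g : SL(2, ℤ)} (hg : IsOfFinOrder g) : IsOfFinOrder (-g) := by
  obtain ⟨n, hn, hgn⟩ := isOfFinOrder_iff_pow_eq_one.mp hg
  refine isOfFinOrder_iff_pow_eq_one.mpr ⟨2 * n, by omega, ?_⟩
  rw [pow_mul, neg_sq, ← pow_mul, mul_comm, pow_mul, hgn, one_pow]


/-! ### Descent for traces `0` and `1` -/

lemma exists_round (r c : ℤ) (hc : c ≠ 0) : ∃ k : ℤ, |r + 2 * k * c| ≤ |c| := by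
  have hc' : 0 < |c| := abs_pos.mpr hc
  have h1 := Int.emod_add_mul_ediv (r + |c|) (2 * |c|)
  have h2 := Int.emod_nonneg (r + |c|) (by positivity : (2 * |c|) ≠ 0)
  have h3 := Int.emod_lt_of_pos (r + |c|) (by positivity : 0 < 2 * |c|)
  set q := (r + |c|) / (2 * |c|)
  set e := (r + |c|) % (2 * |c|)
  rcases abs_cases c with ⟨habs, _⟩ | ⟨habs, _⟩
  · refine ⟨-q, ?_⟩
    rw [habs] at h1 h3 ⊢
    rw [abs_le]
    constructor <;> nlinarith
  · refine ⟨q, ?_⟩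
    rw [habs] at h1 h3 ⊢
    rw [abs_le]
    constructor <;> nlinarith

lemma bc_neg_of_trace (t : ℤ) (ht : t = 0 ∨ t = 1) (a b c d : ℤ) (h : a * d - b * c = 1)
    (htr : a + d = t) : b * c < 0 := by
  have hd : d = t - a := by linarith
  subst hd
  rcases ht with rfl | rfl <;> nlinarith [sq_nonneg a, sq_nonneg (2 * a - 1)]

lemma exists_reduced (t : ℤ) (ht : t = 0 ∨ t = 1) :
    ∀ n : ℕ, ∀ (a b c d : ℤ) (h : a * d - b * c = 1), a + d = t → c.natAbs ≤ n →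
      ∃ (h' : SL(2, ℤ)) (a' b' c' d' : ℤ) (h2 : a' * d' - b' * c' = 1),
        h' * mkSL a b c d h * h'⁻¹ = mkSL a' b' c' d' h2 ∧ a' + d' = t ∧
          |2 * a' - t| ≤ |c'| ∧ |c'| ≤ |b'| := by
  intro n
  induction n with
  | zero =>
    intro a b c d h htr hc
    have hc0 : c = 0 := by omega
    have := bc_neg_of_trace t ht a b c d h htr
    rw [hc0] at this
    simp at this
  | succ n ih =>
    intro a b c d h htr hc
    have hbc := bc_neg_of_trace t ht a b c d h htr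
    have hc0 : c ≠ 0 := by
      rintro rfl
      simp at hbc
    obtain ⟨k, hk⟩ := exists_round (2 * a - t) c hc0
    have e1 := conj_T_zpow k a b c d h
    have htr' : (a + k * c) + (d - k * c) = t := by linarith
    have hk' : |2 * (a + k * c) - t| ≤ |c| := by
      have : 2 * (a + k * c) - t = 2 * a - t + 2 * k * c := by ring
      rw [this]; exact hk
    by_cases hb : |c| ≤ |b + k * (d - a) - k ^ 2 * c|
    · exact ⟨T ^ k, _, _, _, _, _, e1, htr', hk', hb⟩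
    · rw [not_le] at hb
      have e2 := conj_S (a + k * c) (b + k * (d - a) - k ^ 2 * c) c (d - k * c)
        (by linear_combination h)
      have hlt : (-(b + k * (d - a) - k ^ 2 * c)).natAbs ≤ n := by
        rw [Int.natAbs_neg]
        have h1 : ((b + k * (d - a) - k ^ 2 * c).natAbs : ℤ) = |b + k * (d - a) - k ^ 2 * c| :=
          Int.natCast_natAbs _
        have h2 : ((c.natAbs : ℕ) : ℤ) = |c| := Int.natCast_natAbs _
        omega
      obtain ⟨h'', a'', b'', c'', d'', h2, e3, htr'', hr1, hr2⟩ :=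
        ih (d - k * c) (-c) (-(b + k * (d - a) - k ^ 2 * c)) (a + k * c)
          (by linear_combination h) (by linarith) hlt
      exact ⟨h'' * (S * T ^ k), a'', b'', c'', d'', h2, conj_trans (conj_trans e1 e2) e3,
        htr'', hr1, hr2⟩

lemma reduced_zero (a b c d : ℤ) (h : a * d - b * c = 1) (htr : a + d = 0)
    (h1 : |2 * a - 0| ≤ |c|) (h2 : |c| ≤ |b|) :
    a = 0 ∧ d = 0 ∧ ((b = 1 ∧ c = -1) ∨ (b = -1 ∧ c = 1)) := by
  have hd : d = -a := by linarith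
  subst hd
  have hbc : b * c = -(a ^ 2 + 1) := by linear_combination -h
  have h3 : (2 * a) ^ 2 ≤ c ^ 2 := by
    rw [sub_zero] at h1
    exact sq_le_sq.mpr h1
  have h4 : c ^ 2 ≤ |b| * |c| := by
    have := mul_le_mul_of_nonneg_right h2 (abs_nonneg c)
    calc c ^ 2 = |c| * |c| := by rw [← sq, sq_abs]
      _ ≤ |b| * |c| := this
  have h5 : |b| * |c| = a ^ 2 + 1 := by
    rw [← abs_mul, hbc, abs_neg, abs_of_pos (by positivity)]
  have ha : a = 0 := by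
    have : a ^ 2 ≤ 0 := by nlinarith
    exact pow_eq_zero_iff (two_ne_zero) |>.mp (le_antisymm this (sq_nonneg a))
  subst ha
  refine ⟨rfl, by simp, ?_⟩
  have : b * c = -1 := by rw [hbc]; norm_num
  exact Int.mul_eq_neg_one_iff_eq_one_or_neg_one.mp this

lemma reduced_one (a b c d : ℤ) (h : a * d - b * c = 1) (htr : a + d = 1)
    (h1 : |2 * a - 1| ≤ |c|) (h2 : |c| ≤ |b|) :
    ((a = 0 ∧ d = 1) ∨ (a = 1 ∧ d = 0)) ∧ ((b = 1 ∧ c = -1) ∨ (b = -1 ∧ c = 1)) := by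
  have hd : d = 1 - a := by linarith
  subst hd
  have hbc : b * c = -(a ^ 2 - a + 1) := by linear_combination -h
  have h3 : (2 * a - 1) ^ 2 ≤ c ^ 2 := sq_le_sq.mpr h1
  have h4 : c ^ 2 ≤ |b| * |c| := by
    have := mul_le_mul_of_nonneg_right h2 (abs_nonneg c)
    calc c ^ 2 = |c| * |c| := by rw [← sq, sq_abs]
      _ ≤ |b| * |c| := this
  have hpos : 0 < a ^ 2 - a + 1 := by nlinarith [sq_nonneg (2 * a - 1)]
  have h5 : |b| * |c| = a ^ 2 - a + 1 := by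
    rw [← abs_mul, hbc, abs_neg, abs_of_pos hpos]
  have ha : a = 0 ∨ a = 1 := by
    have h6 : a * (a - 1) ≤ 0 := by nlinarith
    have h7 : 0 ≤ a := by nlinarith
    have h8 : a ≤ 1 := by nlinarith
    omega
  have hbc1 : b * c = -1 := by
    rcases ha with rfl | rfl <;> rw [hbc] <;> norm_num
  refine ⟨?_, Int.mul_eq_neg_one_iff_eq_one_or_neg_one.mp hbc1⟩
  rcases ha with rfl | rfl
  · left; exact ⟨rfl, by norm_num⟩
  · right; exact ⟨rfl, by norm_num⟩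


/-! ### Classification -/

lemma conj_of_tr2_zero (g : SL(2, ℤ)) (ht : tr2 g = 0) :
    ∃ h : SL(2, ℤ), h * g * h⁻¹ = S ∨ h * g * h⁻¹ = -S := by
  obtain ⟨h, a, b, c, d, h2, e, htr, hr1, hr2⟩ :=
    exists_reduced 0 (Or.inl rfl) (g.1 1 0).natAbs (g.1 0 0) (g.1 0 1) (g.1 1 0) (g.1 1 1)
      (det_entries g) ht le_rfl
  rw [← eq_mkSL g] at e
  obtain ⟨rfl, rfl, ⟨rfl, rfl⟩ | ⟨rfl, rfl⟩⟩ := reduced_zero a b c d h2 htr hr1 hr2
  · refine ⟨h, Or.inr ?_⟩
    rw [e, S_eq, neg_mkSL]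
    apply ext_entries <;> simp
  · refine ⟨h, Or.inl ?_⟩
    rw [e, S_eq]

lemma conj_of_tr2_one (g : SL(2, ℤ)) (ht : tr2 g = 1) :
    ∃ h : SL(2, ℤ), h * g * h⁻¹ = S * T ∨ h * g * h⁻¹ = -(S * T) ^ 2 := by
  obtain ⟨h, a, b, c, d, h2, e, htr, hr1, hr2⟩ :=
    exists_reduced 1 (Or.inr rfl) (g.1 1 0).natAbs (g.1 0 0) (g.1 0 1) (g.1 1 0) (g.1 1 1)
      (det_entries g) ht le_rfl
  rw [← eq_mkSL g] at e
  have hST2 : -(S * T) ^ 2 = mkSL 1 1 (-1) 0 (by norm_num) := by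
    rw [ST_sq_eq, neg_mkSL]
    apply ext_entries <;> simp
  obtain ⟨⟨rfl, rfl⟩ | ⟨rfl, rfl⟩, ⟨rfl, rfl⟩ | ⟨rfl, rfl⟩⟩ := reduced_one a b c d h2 htr hr1 hr2
  · -- (0, 1, -1, 1): conjugate by `S` to (1, 1, -1, 0) = -(ST)²
    have e2 := conj_S 0 1 (-1) 1 h2
    refine ⟨S * h, Or.inr ?_⟩
    rw [conj_trans e e2, hST2]
    apply ext_entries <;> simp
  · -- (0, -1, 1, 1) = ST
    refine ⟨h, Or.inl ?_⟩
    rw [e, ST_eq]
  · -- (1, 1, -1, 0) = -(ST)²
    refine ⟨h, Or.inr ?_⟩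
    rw [e, hST2]
  · -- (1, -1, 1, 0): conjugate by `S` to (0, -1, 1, 1) = ST
    have e2 := conj_S 1 (-1) 1 0 h2
    refine ⟨S * h, Or.inl ?_⟩
    rw [conj_trans e e2, ST_eq]
    apply ext_entries <;> simp

/-- **TORS**: every element of finite order of `SL(2,ℤ)` is conjugate to one of
`± 1, ± S, ± ST, ± (ST)²`. -/
theorem torsion_class (g : SL(2, ℤ)) (hg : IsOfFinOrder g) :
    ∃ h : SL(2, ℤ), h * g * h⁻¹ = 1 ∨ h * g * h⁻¹ = -1 ∨ h * g * h⁻¹ = S ∨ h * g * h⁻¹ = -S ∨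
      h * g * h⁻¹ = S * T ∨ h * g * h⁻¹ = -(S * T) ∨ h * g * h⁻¹ = (S * T) ^ 2 ∨
      h * g * h⁻¹ = -(S * T) ^ 2 := by
  have hb := abs_tr2_le_two hg
  rw [abs_le] at hb
  have hcases : tr2 g = 2 ∨ tr2 g = -2 ∨ tr2 g = 0 ∨ tr2 g = 1 ∨ tr2 g = -1 := by omega
  rcases hcases with ht | ht | ht | ht | ht
  · refine ⟨1, Or.inl ?_⟩
    rw [eq_one_of_tr2_eq_two hg ht]; group
  · refine ⟨1, Or.inr (Or.inl ?_)⟩
    have h1 : -g = 1 := eq_one_of_tr2_eq_two (isOfFinOrder_neg hg) (by rw [tr2_neg, ht]; norm_num)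
    have h2 : g = -1 := by rw [← h1, neg_neg]
    rw [h2]; simp
  · obtain ⟨h, e | e⟩ := conj_of_tr2_zero g ht
    · exact ⟨h, Or.inr (Or.inr (Or.inl e))⟩
    · exact ⟨h, Or.inr (Or.inr (Or.inr (Or.inl e)))⟩
  · obtain ⟨h, e | e⟩ := conj_of_tr2_one g ht
    · exact ⟨h, Or.inr (Or.inr (Or.inr (Or.inr (Or.inl e))))⟩
    · exact ⟨h, Or.inr (Or.inr (Or.inr (Or.inr (Or.inr (Or.inr (Or.inr e))))))⟩
  · obtain ⟨h, e | e⟩ := conj_of_tr2_one (-g) (by rw [tr2_neg, ht]; norm_num)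
    · refine ⟨h, Or.inr (Or.inr (Or.inr (Or.inr (Or.inr (Or.inl ?_)))))⟩
      rw [← e]; simp
    · refine ⟨h, Or.inr (Or.inr (Or.inr (Or.inr (Or.inr (Or.inr (Or.inl ?_))))))⟩
      have : h * g * h⁻¹ = -(h * -g * h⁻¹) := by simp
      rw [this, e, neg_neg]

end Fermat.Agent.S41.H952
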