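import Fermat.Agent.S41.Spec.PD
import Fermat.Agent.S41.H952.TorsCore

/-!
# S41 / PD leaf TORS (helper952): `torsionClass : Spec.TorsionClassStatement`
-/

set_option autoImplicit false

namespace Fermat.Agent.S41.H952

/-- **(TORS)** in the exact shape of `Fermat/Agent/S41/Spec/PD.lean`. -/
theorem torsionClass : Fermat.Agent.S41.Spec.TorsionClassStatement :=
  fun g hg => torsion_class g hg

end Fermat.Agent.S41.H952
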